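import Mathlib
import Fermat.Agent.S48x.G1.Defs
import Fermat.Agent.Gateway.Hecke.CohPE
import Fermat.Agent.Gateway.Export.CohOp

/-!
# P-S48, G1 (b1.2)+(b1.3): Hecke and diamond operators on `Hom(±Γ₁(M), A)` (helper4)

`Γ = ±Γ₁(M)`, `p ∤ M` prime, `σ ∈ Γ₀(M)` with lower right entry `≡ p mod M`.
The representatives of `Γ \ Γ diag(1, p) Γ` are `rep1 σ x = sRep σ x * heckeRep p x`,
`x ∈ ℙ¹(𝔽_p)` (`sRep σ ∞ = σ`, `sRep σ j = 1`), and
`rep1 σ x * γ = coc1 σ x γ * rep1 σ (γ̄ • x)` with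
`coc1 σ x γ = sRep σ x * coc x γ * (sRep σ (γ̄ • x))⁻¹ ∈ Γ` (`coc` the cocycle of `Γ₀(M)`).

* `heckeHom1 σ A : Hom(Γ, A) → Hom(Γ, A)`, `(T_p φ) γ = ∑ x, φ (coc1 σ x γ)`;
* `diamHom τ A` (`τ ∈ Γ₀(M)`): `(⟨τ⟩ φ) γ = φ (τ γ τ⁻¹)`;
* both are natural in `A` and preserve `homPE`; `heckeCohOp1`, `diamCohOp` : `CohOp (±Γ₁(M))`.
-/

set_option autoImplicit false
set_option linter.unusedSectionVars false

namespace Fermat.Agent.S48x.G1

open P2MW.S_ModularForm_heckeT_slash_eq_self_of_mem_Gamma0.ModularForm.HeckeSlashInvariance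
open CongruenceSubgroup Matrix.SpecialLinearGroup
open Fermat.Agent.Gateway.HeckeCoh
open Fermat.Agent.Gateway.A2
open Fermat.Agent.S48x.Nebentypus (sRep sRep_mem sRep_lowerRight delta isUnit_delta coc_lowerRight)
open scoped MatrixGroups

variable (M p : ℕ) [NeZero M] [Fact p.Prime] (hpM : ¬ p ∣ M)

/-- A twisting element for `T_p` on `±Γ₁(M)`: `σ ∈ Γ₀(M)` with lower right entry `≡ p`. -/
structure Twist where
  /-- the matrix -/
  σ : SL(2, ℤ)
  mem : σ ∈ Gamma0 M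
  lr_eq : lr M σ = (p : ZMod M)

include hpM in
theorem nonempty_twist : Nonempty (Twist M p) := by
  have hcop : IsCoprime (p : ℤ) (M : ℤ) :=
    Nat.isCoprime_iff_coprime.mpr ((Nat.Prime.coprime_iff_not_dvd Fact.out).mpr hpM)
  obtain ⟨σ, hσ, hσp⟩ := exists_lowerRight_eq M hcop
  exact ⟨⟨σ, hσ, by simp [lr, hσp]⟩⟩

variable {M p}

/-- The element of `Γ₀(M)` underlying an element of `±Γ₁(M)`. -/
def toGamma0 (γ : Gamma1pm M) : Gamma0 M := ⟨γ, Gamma1pm_le_Gamma0 M γ.2⟩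

@[simp] theorem toGamma0_coe (γ : Gamma1pm M) : ((toGamma0 γ : Gamma0 M) : SL(2, ℤ)) = γ := rfl

theorem toGamma0_mul (γ δ : Gamma1pm M) : toGamma0 (γ * δ) = toGamma0 γ * toGamma0 δ := rfl

theorem toGamma0_one : toGamma0 (1 : Gamma1pm M) = 1 := rfl

variable (t : Twist M p)

include hpM in
theorem coc1_mem (x : OnePoint (ZMod p)) (γ : Gamma1pm M) :
    sRep p t.σ x * (coc M p hpM x (toGamma0 γ) : SL(2, ℤ)) *
      (sRep p t.σ (redMatrix p (γ : SL(2, ℤ)) • x))⁻¹ ∈ Gamma1pm M := by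
  set x' := redMatrix p (γ : SL(2, ℤ)) • x with hx'
  set c : Gamma0 M := coc M p hpM x (toGamma0 γ) with hc
  have hs : sRep p t.σ x ∈ Gamma0 M := sRep_mem M p t.mem x
  have hs' : sRep p t.σ x' ∈ Gamma0 M := sRep_mem M p t.mem x'
  refine ⟨(Gamma0 M).mul_mem ((Gamma0 M).mul_mem hs c.2) ((Gamma0 M).inv_mem hs'), ?_⟩
  have hval : lr M (sRep p t.σ x * (c : SL(2, ℤ)) * (sRep p t.σ x')⁻¹) = lr M (γ : SL(2, ℤ)) := by
    have h1 : lr M (c : SL(2, ℤ)) * delta M p x' = delta M p x * lr M (γ : SL(2, ℤ)) :=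
      coc_lowerRight M p hpM x (toGamma0 γ)
    have h2 : lr M (sRep p t.σ x) * delta M p x = (p : ZMod M) :=
      sRep_lowerRight M p t.lr_eq x
    have h3 : lr M (sRep p t.σ x') * delta M p x' = (p : ZMod M) :=
      sRep_lowerRight M p t.lr_eq x'
    have h4 : lr M (sRep p t.σ x')⁻¹ * lr M (sRep p t.σ x') = 1 := lr_inv_mul_lr hs'
    have hu : IsUnit ((p : ZMod M)) :=
      (ZMod.isUnit_iff_coprime p M).mpr ((Nat.Prime.coprime_iff_not_dvd Fact.out).mpr hpM)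
    rw [lr_mul ((Gamma0 M).mul_mem hs c.2), lr_mul hs]
    apply hu.mul_right_cancel
    calc lr M (sRep p t.σ x) * lr M (c : SL(2, ℤ)) * lr M (sRep p t.σ x')⁻¹ * (p : ZMod M)
        = lr M (sRep p t.σ x) * lr M (c : SL(2, ℤ)) * lr M (sRep p t.σ x')⁻¹ *
            (lr M (sRep p t.σ x') * delta M p x') := by rw [h3]
      _ = lr M (sRep p t.σ x) * (lr M (c : SL(2, ℤ)) * delta M p x') *
            (lr M (sRep p t.σ x')⁻¹ * lr M (sRep p t.σ x')) := by ring
      _ = lr M (γ : SL(2, ℤ)) * (p : ZMod M) := by rw [h1, h4, ← h2]; ring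
  rw [hval]
  exact γ.2.2

/-- The Hecke cocycle of `±Γ₁(M)`. -/
noncomputable def coc1 (x : OnePoint (ZMod p)) (γ : Gamma1pm M) : Gamma1pm M :=
  ⟨sRep p t.σ x * (coc M p hpM x (toGamma0 γ) : SL(2, ℤ)) *
      (sRep p t.σ (redMatrix p (γ : SL(2, ℤ)) • x))⁻¹, coc1_mem hpM t x γ⟩

theorem coc1_coe (x : OnePoint (ZMod p)) (γ : Gamma1pm M) :
    ((coc1 hpM t x γ : Gamma1pm M) : SL(2, ℤ)) =
      sRep p t.σ x * (coc M p hpM x (toGamma0 γ) : SL(2, ℤ)) *
        (sRep p t.σ (redMatrix p (γ : SL(2, ℤ)) • x))⁻¹ := rfl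

/-- The representatives of the double coset of `T_p` for `±Γ₁(M)`. -/
noncomputable def rep1 (x : OnePoint (ZMod p)) : GL (Fin 2) ℝ :=
  mapGL ℝ (sRep p t.σ x) * heckeRep p x

theorem coc1_spec (x : OnePoint (ZMod p)) (γ : Gamma1pm M) :
    rep1 t x * mapGL ℝ (γ : SL(2, ℤ)) =
      mapGL ℝ (coc1 hpM t x γ : SL(2, ℤ)) * rep1 t (redMatrix p (γ : SL(2, ℤ)) • x) := by
  have h := coc_spec M p hpM x (toGamma0 γ)
  rw [toGamma0_coe] at h
  rw [rep1, rep1, mul_assoc, h, coc1_coe, map_mul, map_mul, map_inv]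
  group

theorem coc1_mul (x : OnePoint (ZMod p)) (γ δ : Gamma1pm M) :
    coc1 hpM t x (γ * δ) =
      coc1 hpM t x γ * coc1 hpM t (redMatrix p (γ : SL(2, ℤ)) • x) δ := by
  apply Subtype.ext
  rw [Subgroup.coe_mul, coc1_coe, coc1_coe, coc1_coe, toGamma0_mul, coc_mul, Subgroup.coe_mul,
    Subgroup.coe_mul, redMatrix_mul, mul_smul, toGamma0_coe]
  group

theorem coc1_one (x : OnePoint (ZMod p)) : coc1 hpM t x 1 = 1 := by
  apply Subtype.ext
  rw [coc1_coe, toGamma0_one, coc_one]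
  simp [redMatrix_one]

/-- The Hecke operator `T_p` on additive characters of `±Γ₁(M)`. -/
noncomputable def heckeHom1 (A : Type*) [AddCommGroup A] :
    (Additive (Gamma1pm M) →+ A) →+ (Additive (Gamma1pm M) →+ A) where
  toFun φ :=
    { toFun := fun γ => ∑ x : OnePoint (ZMod p), φ (Additive.ofMul (coc1 hpM t x γ.toMul))
      map_zero' := by
        show ∑ x : OnePoint (ZMod p), φ (Additive.ofMul (coc1 hpM t x 1)) = 0
        simp [coc1_one]
      map_add' := by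
        intro a b
        show ∑ x : OnePoint (ZMod p), φ (Additive.ofMul (coc1 hpM t x (a.toMul * b.toMul))) = _
        simp_rw [coc1_mul, ofMul_mul, map_add, Finset.sum_add_distrib]
        congr 1
        exact Equiv.sum_comp (MulAction.toPerm (redMatrix p (a.toMul : SL(2, ℤ))))
          (fun y => φ (Additive.ofMul (coc1 hpM t y b.toMul))) }
  map_zero' := by
    ext γ
    simp
  map_add' := by
    intro φ ψ
    ext γ
    simp [Finset.sum_add_distrib]

theorem heckeHom1_apply (A : Type*) [AddCommGroup A] (φ : Additive (Gamma1pm M) →+ A)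
    (γ : Gamma1pm M) :
    heckeHom1 hpM t A φ (Additive.ofMul γ) =
      ∑ x : OnePoint (ZMod p), φ (Additive.ofMul (coc1 hpM t x γ)) := rfl

/-- Naturality of `heckeHom1` in the coefficient group. -/
theorem heckeHom1_comp {A B : Type*} [AddCommGroup A] [AddCommGroup B] (f : A →+ B)
    (φ : Additive (Gamma1pm M) →+ A) :
    heckeHom1 hpM t B (f.comp φ) = f.comp (heckeHom1 hpM t A φ) := by
  ext γ
  show ∑ x : OnePoint (ZMod p), f (φ (Additive.ofMul (coc1 hpM t x γ))) =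
    f (∑ x : OnePoint (ZMod p), φ (Additive.ofMul (coc1 hpM t x γ)))
  rw [map_sum]

/-- The value of an additive character on `coc1 x (γ ^ k)`. -/
theorem map_coc1_pow {A : Type*} [AddCommGroup A] (φ : Additive (Gamma1pm M) →+ A)
    (x : OnePoint (ZMod p)) (γ : Gamma1pm M) (k : ℕ) :
    φ (Additive.ofMul (coc1 hpM t x (γ ^ k))) =
      ∑ i ∈ Finset.range k,
        φ (Additive.ofMul (coc1 hpM t (redMatrix p (γ : SL(2, ℤ)) ^ i • x) γ)) := by
  induction k with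
  | zero => simp [coc1_one]
  | succ k ih =>
    rw [pow_succ, coc1_mul, ofMul_mul, map_add, ih, Finset.sum_range_succ, Subgroup.coe_pow,
      redMatrix_pow]

theorem heckeHom1_mem_homPE {R : Type*} [Semiring R] {A : Type*} [AddCommGroup A] [Module R A]
    {φ : Additive (Gamma1pm M) →+ A} (hφ : φ ∈ homPE R (Gamma1pm M) A) :
    heckeHom1 hpM t A φ ∈ homPE R (Gamma1pm M) A := by
  intro γ hγ
  rw [heckeHom1_apply]
  refine sum_eq_zero_of_orbit_sums (redMatrix p (γ : SL(2, ℤ)))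
    (fun x => φ (Additive.ofMul (coc1 hpM t x γ))) fun x => ?_
  set k := Function.minimalPeriod (redMatrix p (γ : SL(2, ℤ)) • ·) x with hk
  rw [← map_coc1_pow]
  apply hφ
  have hper : redMatrix p (γ : SL(2, ℤ)) ^ k • x = x := by
    have h := Function.isPeriodicPt_minimalPeriod (redMatrix p (γ : SL(2, ℤ)) • ·) x
    have h2 : (redMatrix p (γ : SL(2, ℤ)) • ·)^[k] x = x := h
    rwa [smul_iterate] at h2
  have hspec := coc1_spec hpM t x (γ ^ k)
  rw [Subgroup.coe_pow, redMatrix_pow, hper] at hspec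
  exact isPE_of_conj hspec (isPE_pow hγ k)

/-! ### Diamond operators -/

/-- The diamond operator attached to `τ ∈ Γ₀(M)`: `(⟨τ⟩ φ) γ = φ (τ γ τ⁻¹)`. -/
def diamHom (τ : Gamma0 M) (A : Type*) [AddCommGroup A] :
    (Additive (Gamma1pm M) →+ A) →+ (Additive (Gamma1pm M) →+ A) where
  toFun φ := φ.comp (MonoidHom.toAdditive (conjBy τ))
  map_zero' := rfl
  map_add' _ _ := rfl

theorem diamHom_apply (τ : Gamma0 M) (A : Type*) [AddCommGroup A]
    (φ : Additive (Gamma1pm M) →+ A) (γ : Gamma1pm M) :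
    diamHom τ A φ (Additive.ofMul γ) = φ (Additive.ofMul (conjBy τ γ)) := rfl

theorem diamHom_comp (τ : Gamma0 M) {A B : Type*} [AddCommGroup A] [AddCommGroup B] (f : A →+ B)
    (φ : Additive (Gamma1pm M) →+ A) :
    diamHom τ B (f.comp φ) = f.comp (diamHom τ A φ) := rfl

theorem isPE_conj {g h : SL(2, ℤ)} (hg : IsPE g) : IsPE (h * g * h⁻¹) := by
  unfold IsPE at hg ⊢
  have : ((h * g * h⁻¹ : SL(2, ℤ)) : Matrix (Fin 2) (Fin 2) ℤ).trace =
      (g : Matrix (Fin 2) (Fin 2) ℤ).trace := by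
    rw [Matrix.SpecialLinearGroup.coe_mul, Matrix.SpecialLinearGroup.coe_mul, Matrix.trace_mul_comm,
      ← Matrix.mul_assoc, ← Matrix.SpecialLinearGroup.coe_mul, inv_mul_cancel,
      Matrix.SpecialLinearGroup.coe_one, Matrix.one_mul]
  rw [this]
  exact hg

theorem diamHom_mem_homPE (τ : Gamma0 M) {R : Type*} [Semiring R] {A : Type*} [AddCommGroup A]
    [Module R A] {φ : Additive (Gamma1pm M) →+ A} (hφ : φ ∈ homPE R (Gamma1pm M) A) :
    diamHom τ A φ ∈ homPE R (Gamma1pm M) A := by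
  intro γ hγ
  rw [diamHom_apply]
  apply hφ
  rw [conjBy_coe]
  exact isPE_conj hγ

/-! ### The operators as `CohOp`s -/

open Fermat.Agent.Gateway.Export in
/-- `T_p` as a `CohOp`. -/
noncomputable def heckeCohOp1 : CohOp (Gamma1pm M) where
  op B _ := heckeHom1 hpM t B
  natural _ _ _ _ f φ := heckeHom1_comp hpM t f φ
  pres _ _ _ hφ := heckeHom1_mem_homPE hpM t hφ

open Fermat.Agent.Gateway.Export in
/-- `⟨τ⟩` as a `CohOp`. -/
def diamCohOp (τ : Gamma0 M) : CohOp (Gamma1pm M) where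
  op B _ := diamHom τ B
  natural _ _ _ _ f φ := diamHom_comp τ f φ
  pres _ _ _ hφ := diamHom_mem_homPE τ hφ

end Fermat.Agent.S48x.G1
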