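import Mathlib
import Fermat.Agent.S48x.G1.Hecke.Coh1

/-!
# P-S48, G1: the Hecke and diamond operators of `±Γ₁(M)` on `homPE` (linear form) and on
multiplicative characters (helper4)

Clone of the second half of `Gateway/Hecke/CohPE.lean` for `heckeHom1`, `diamHom`:

* `heckeCohR1`, `diamCohR` : `R`-linear endomorphisms of `homPE R (±Γ₁(M)) B`;
* `heckeCharHom1`, `diamCharHom` : the multiplicative twins on `±Γ₁(M) →* C`;
* `heckeChar1`, `diamChar` : on `charPE`; compatibility with `charPEEquiv`.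
-/

set_option autoImplicit false
set_option linter.unusedSectionVars false

namespace Fermat.Agent.S48x.G1

open P2MW.S_ModularForm_heckeT_slash_eq_self_of_mem_Gamma0.ModularForm.HeckeSlashInvariance
open CongruenceSubgroup Matrix.SpecialLinearGroup
open Fermat.Agent.Gateway.HeckeCoh
open Fermat.Agent.Gateway.A2
open scoped MatrixGroups

variable {M p : ℕ} [NeZero M] [Fact p.Prime] (hpM : ¬ p ∣ M) (t : Twist M p)

/-! ### Linear forms -/

theorem heckeHom1_smul {R : Type*} [Semiring R] {A : Type*} [AddCommGroup A] [Module R A]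
    (c : R) (φ : Additive (Gamma1pm M) →+ A) :
    heckeHom1 hpM t A (c • φ) = c • heckeHom1 hpM t A φ := by
  refine AddMonoidHom.ext fun gam => ?_
  obtain ⟨gam, rfl⟩ := Additive.ofMul.surjective gam
  rw [AddMonoidHom.smul_apply, heckeHom1_apply, heckeHom1_apply, Finset.smul_sum]
  rfl

/-- `T_p` on `homPE R (±Γ₁(M)) B`, as an `R`-linear map. -/
noncomputable def heckeCohR1 (R : Type*) [Semiring R] (B : Type*) [AddCommGroup B] [Module R B] :
    homPE R (Gamma1pm M) B →ₗ[R] homPE R (Gamma1pm M) B where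
  toFun φ := ⟨heckeHom1 hpM t B φ.1, heckeHom1_mem_homPE hpM t φ.2⟩
  map_add' φ ψ := by
    apply Subtype.ext
    simp
  map_smul' c φ := by
    apply Subtype.ext
    simp [heckeHom1_smul]

theorem heckeCohR1_coe (R : Type*) [Semiring R] (B : Type*) [AddCommGroup B] [Module R B]
    (φ : homPE R (Gamma1pm M) B) :
    (heckeCohR1 hpM t R B φ : Additive (Gamma1pm M) →+ B) = heckeHom1 hpM t B φ.1 := rfl

theorem diamHom_smul (τ : Gamma0 M) {R : Type*} [Semiring R] {A : Type*} [AddCommGroup A]
    [Module R A] (c : R) (φ : Additive (Gamma1pm M) →+ A) :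
    diamHom τ A (c • φ) = c • diamHom τ A φ := rfl

/-- `⟨τ⟩` on `homPE R (±Γ₁(M)) B`, as an `R`-linear map. -/
def diamCohR (τ : Gamma0 M) (R : Type*) [Semiring R] (B : Type*) [AddCommGroup B] [Module R B] :
    homPE R (Gamma1pm M) B →ₗ[R] homPE R (Gamma1pm M) B where
  toFun φ := ⟨diamHom τ B φ.1, diamHom_mem_homPE τ φ.2⟩
  map_add' φ ψ := by
    apply Subtype.ext
    simp
  map_smul' c φ := by
    apply Subtype.ext
    simp [diamHom_smul]

theorem diamCohR_coe (τ : Gamma0 M) (R : Type*) [Semiring R] (B : Type*) [AddCommGroup B]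
    [Module R B] (φ : homPE R (Gamma1pm M) B) :
    (diamCohR τ R B φ : Additive (Gamma1pm M) →+ B) = diamHom τ B φ.1 := rfl

/-! ### The multiplicative twins -/

/-- `T_p` on multiplicative characters: `(heckeCharHom1 χ) γ = ∏ x, χ (coc1 x γ)`. -/
noncomputable def heckeCharHom1 (C : Type*) [CommGroup C] :
    (Gamma1pm M →* C) →* (Gamma1pm M →* C) where
  toFun χ :=
    { toFun := fun gam => ∏ x : OnePoint (ZMod p), χ (coc1 hpM t x gam)
      map_one' := by simp [coc1_one]
      map_mul' := by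
        intro a b
        simp_rw [coc1_mul, map_mul, Finset.prod_mul_distrib]
        congr 1
        exact Equiv.prod_comp (MulAction.toPerm (redMatrix p (a : SL(2, ℤ))))
          (fun y => χ (coc1 hpM t y b)) }
  map_one' := by
    ext gam
    simp
  map_mul' := by
    intro χ ψ
    ext gam
    simp [Finset.prod_mul_distrib]

theorem heckeCharHom1_apply (C : Type*) [CommGroup C] (χ : Gamma1pm M →* C) (gam : Gamma1pm M) :
    heckeCharHom1 hpM t C χ gam = ∏ x : OnePoint (ZMod p), χ (coc1 hpM t x gam) := rfl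

theorem toAdditive_heckeCharHom1 (C : Type*) [CommGroup C] (χ : Gamma1pm M →* C) :
    MonoidHom.toAdditive (heckeCharHom1 hpM t C χ) =
      heckeHom1 hpM t (Additive C) (MonoidHom.toAdditive χ) := by
  ext gam
  rfl

theorem heckeCharHom1_comp {C D : Type*} [CommGroup C] [CommGroup D] (f : C →* D)
    (χ : Gamma1pm M →* C) :
    heckeCharHom1 hpM t D (f.comp χ) = f.comp (heckeCharHom1 hpM t C χ) := by
  ext gam
  simp [heckeCharHom1_apply, map_prod]

theorem heckeCharHom1_mem_charPE {C : Type*} [CommGroup C] {χ : Gamma1pm M →* C}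
    (hχ : χ ∈ Count.charPE (Gamma1pm M) C) :
    heckeCharHom1 hpM t C χ ∈ Count.charPE (Gamma1pm M) C := by
  have h1 : MonoidHom.toAdditive χ ∈ homPE ℤ (Gamma1pm M) (Additive C) := by
    intro gam hgam
    exact congrArg Additive.ofMul (hχ gam hgam)
  have h2 := heckeHom1_mem_homPE hpM t h1
  rw [← toAdditive_heckeCharHom1] at h2
  intro gam hgam
  exact congrArg Additive.toMul (h2 gam hgam)

/-- `T_p` on multiplicative characters killing parabolic/elliptic elements. -/
noncomputable def heckeChar1 (C : Type*) [CommGroup C] :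
    Count.charPE (Gamma1pm M) C →* Count.charPE (Gamma1pm M) C where
  toFun χ := ⟨heckeCharHom1 hpM t C χ.1, heckeCharHom1_mem_charPE hpM t χ.2⟩
  map_one' := by
    apply Subtype.ext
    simp
  map_mul' χ ψ := by
    apply Subtype.ext
    simp

theorem heckeChar1_coe (C : Type*) [CommGroup C] (χ : Count.charPE (Gamma1pm M) C) :
    (heckeChar1 hpM t C χ : Gamma1pm M →* C) = heckeCharHom1 hpM t C χ.1 := rfl

theorem heckeChar1_apply (C : Type*) [CommGroup C] (χ : Count.charPE (Gamma1pm M) C)
    (gam : Gamma1pm M) :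
    (heckeChar1 hpM t C χ : Gamma1pm M →* C) gam =
      ∏ x : OnePoint (ZMod p), (χ : Gamma1pm M →* C) (coc1 hpM t x gam) := rfl

/-- Compatibility of `heckeChar1` and `heckeCohR1` under `charPEEquiv`. -/
theorem charPEEquiv_heckeChar1 (C : Type*) [CommGroup C] [IsCyclic C] (n : ℕ)
    (hn : Nat.card C = n) (χ : Count.charPE (Gamma1pm M) C) :
    Count.charPEEquiv (Gamma1pm M) C n hn (heckeChar1 hpM t C χ) =
      heckeCohR1 hpM t (ZMod n) (ZMod n) (Count.charPEEquiv (Gamma1pm M) C n hn χ) := by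
  subst hn
  apply Subtype.ext
  refine AddMonoidHom.ext fun gam => ?_
  obtain ⟨gam, rfl⟩ := Additive.ofMul.surjective gam
  rw [heckeCohR1_coe, heckeHom1_apply]
  show Multiplicative.toAdd ((zmodCyclicMulEquiv (inferInstance : IsCyclic C)).symm
      (∏ x : OnePoint (ZMod p), (χ : Gamma1pm M →* C) (coc1 hpM t x gam))) =
    ∑ x : OnePoint (ZMod p), Multiplicative.toAdd
      ((zmodCyclicMulEquiv (inferInstance : IsCyclic C)).symm
        ((χ : Gamma1pm M →* C) (coc1 hpM t x gam)))
  rw [map_prod, toAdd_prod]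

/-! ### Diamond operators on multiplicative characters -/

/-- `⟨τ⟩` on multiplicative characters: `(diamCharHom τ χ) γ = χ (τ γ τ⁻¹)`. -/
def diamCharHom (τ : Gamma0 M) (C : Type*) [CommGroup C] :
    (Gamma1pm M →* C) →* (Gamma1pm M →* C) where
  toFun χ := χ.comp (conjBy τ)
  map_one' := rfl
  map_mul' _ _ := rfl

theorem diamCharHom_apply (τ : Gamma0 M) (C : Type*) [CommGroup C] (χ : Gamma1pm M →* C)
    (gam : Gamma1pm M) : diamCharHom τ C χ gam = χ (conjBy τ gam) := rfl

theorem toAdditive_diamCharHom (τ : Gamma0 M) (C : Type*) [CommGroup C] (χ : Gamma1pm M →* C) :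
    MonoidHom.toAdditive (diamCharHom τ C χ) =
      diamHom τ (Additive C) (MonoidHom.toAdditive χ) := rfl

theorem diamCharHom_comp (τ : Gamma0 M) {C D : Type*} [CommGroup C] [CommGroup D] (f : C →* D)
    (χ : Gamma1pm M →* C) :
    diamCharHom τ D (f.comp χ) = f.comp (diamCharHom τ C χ) := rfl

theorem diamCharHom_mem_charPE (τ : Gamma0 M) {C : Type*} [CommGroup C] {χ : Gamma1pm M →* C}
    (hχ : χ ∈ Count.charPE (Gamma1pm M) C) :
    diamCharHom τ C χ ∈ Count.charPE (Gamma1pm M) C := by
  intro gam hgam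
  rw [diamCharHom_apply]
  apply hχ
  rw [conjBy_coe]
  exact isPE_conj hgam

/-- `⟨τ⟩` on multiplicative characters killing parabolic/elliptic elements. -/
def diamChar (τ : Gamma0 M) (C : Type*) [CommGroup C] :
    Count.charPE (Gamma1pm M) C →* Count.charPE (Gamma1pm M) C where
  toFun χ := ⟨diamCharHom τ C χ.1, diamCharHom_mem_charPE τ χ.2⟩
  map_one' := by
    apply Subtype.ext
    simp
  map_mul' χ ψ := by
    apply Subtype.ext
    simp

theorem diamChar_coe (τ : Gamma0 M) (C : Type*) [CommGroup C]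
    (χ : Count.charPE (Gamma1pm M) C) :
    (diamChar τ C χ : Gamma1pm M →* C) = diamCharHom τ C χ.1 := rfl

/-- Compatibility of `diamChar` and `diamCohR` under `charPEEquiv`. -/
theorem charPEEquiv_diamChar (τ : Gamma0 M) (C : Type*) [CommGroup C] [IsCyclic C] (n : ℕ)
    (hn : Nat.card C = n) (χ : Count.charPE (Gamma1pm M) C) :
    Count.charPEEquiv (Gamma1pm M) C n hn (diamChar τ C χ) =
      diamCohR τ (ZMod n) (ZMod n) (Count.charPEEquiv (Gamma1pm M) C n hn χ) := by
  subst hn
  apply Subtype.ext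
  refine AddMonoidHom.ext fun gam => ?_
  obtain ⟨gam, rfl⟩ := Additive.ofMul.surjective gam
  rfl

end Fermat.Agent.S48x.G1
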