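import Mathlib
import Fermat.Agent.S48x.G1.Hecke.Coh1
import Fermat.Agent.S48x.Hecke1.Operator
import Fermat.Agent.Gateway.Hecke.CohPeriod

/-!
# P-S48, G1 (b1.4): the period map of `±Γ₁(M)` intertwines `T_p`, `⟨d⟩` on weight two cusp forms
with the cohomological operators `heckeHom1`, `diamHom`  (helper9)

Clone of `Gateway/Hecke/CohPeriod.lean` for `Γ = ±Γ₁(M)`.

All declarations of this file live in the namespace `Fermat.Agent.S48x.G1.CP1` (helper62's
`Hecke/CohPeriodHecke.lean`, written in parallel, uses some of the same short names in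
`Fermat.Agent.S48x.G1`; the two files can be imported together).  Final statements for
`periodMap1`: `Hecke/CohPeriodTwist.lean`.

The file is independent of the *definition* of the period map of `±Γ₁(M)`: everything is proved
for functions `F : ℍ → ℂ` (`IsNormPrimitive1 M f F`: `F` is a primitive of `f`, tends to `0` at
`i∞`, is `±Γ₁(M)`-equivariant up to constants, has limits at all cusps) and then for any map
`P : CuspForm (Gamma1 M) 2 → (Additive (Gamma1pm M) →+ ℂ)` computed by such primitives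
(`PeriodSpec P`).

Main results:
* `heckePrimitive1_smul_sub` : the periods of `∑ₓ F (rep1 t x • w)` are the sums of the periods of
  `F` along the cocycle `coc1`;
* `IsNormPrimitive1.hecke`, `IsNormPrimitive1.slashGamma0` : primitives of `T_p f` and `f ∣ τ`;
* `PeriodSpec.heckeTLin` : `P (T_p f) = heckeHom1 hpM t ℂ (P f)` for EVERY twist `t`;
* `PeriodSpec.diamLin` : `P (⟨d⟩ f) = diamHom τ ℂ (P f)` for every `τ ∈ Γ₀(M)` with `lr M τ = d`;
* `heckeHom1_twist_indep` : `heckeHom1 hpM t A` does not depend on the twist `t`;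
* `heckeHom1_charInvolution1`, `diamHom_charInvolution1` : compatibility with the involution
  `ψ ↦ ψ ∘ jConj1`.
-/

set_option autoImplicit false
set_option linter.unusedSectionVars false

open Complex Filter Function Topology CongruenceSubgroup ModularForm
open UpperHalfPlane hiding I
open Matrix.SpecialLinearGroup
open scoped Manifold Real MatrixGroups OnePoint
open P2MW.S_ModularForm_heckeT_slash_eq_self_of_mem_Gamma0.ModularForm.HeckeSlashInvariance
open ModularCurve ModularCurve.Period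
open Fermat.Agent.S21
open Fermat.Agent.Gateway.HeckeCoh
open Fermat.Agent.Gateway.HeckeCohPeriod
open Fermat.Agent.S48x.Nebentypus (sRep sRep_infty sRep_coe sRep_mem twistedHecke
  twistedHecke_eq_sum slash_eq_of_lowerRight_eq)

namespace Fermat.Agent.S48x.G1.CP1

/-! ### Normalised equivariant primitives for `±Γ₁(M)` -/

/-- `F` is a normalised equivariant primitive of `f` for `±Γ₁(M)`: a primitive of `f` tending to
`0` at `i∞`, equivariant up to constants under `±Γ₁(M)`, with a limit at every cusp.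
(For `f` a cusp form this is, clause by clause, the `Γ₁`-analogue of the Prelude's
`HasEquivariantPrimitive`.) -/
def IsNormPrimitive1 (M : ℕ) (f F : ℍ → ℂ) : Prop :=
  IsPrimitiveOf f F ∧ Tendsto F atImInfty (𝓝 0) ∧ IsEquivariantPrimitive (Gamma1pm M) F ∧
    ∀ δ : SL(2, ℤ), ∃ L : ℂ, Tendsto (fun w : ℍ => F (δ • w)) atImInfty (𝓝 L)

theorem isNormPrimitive1_iff {M : ℕ} {f F : ℍ → ℂ} :
    IsNormPrimitive1 M f F ↔
      (∀ τ : ℍ, HasDerivAt (F ∘ ofComplex) (f τ) (τ : ℂ)) ∧ Tendsto F atImInfty (𝓝 0) ∧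
        IsEquivariantPrimitive (Gamma1pm M) F ∧
        ∀ δ : SL(2, ℤ), ∃ L : ℂ, Tendsto (fun w : ℍ => F (δ • w)) atImInfty (𝓝 L) := Iff.rfl

/-- Two normalised primitives of the same function coincide. -/
theorem IsNormPrimitive1.unique {M : ℕ} {f F₁ F₂ : ℍ → ℂ} (h₁ : IsNormPrimitive1 M f F₁)
    (h₂ : IsNormPrimitive1 M f F₂) : F₁ = F₂ := by
  funext z
  have hc : ∀ w, F₁ w - F₂ w = F₁ z - F₂ z := fun w => IsPrimitiveOf.sub_const h₁.1 h₂.1 w z
  have ht : Tendsto (fun w => F₁ w - F₂ w) atImInfty (𝓝 (0 - 0)) := h₁.2.1.sub h₂.2.1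
  have ht' : Tendsto (fun w => F₁ w - F₂ w) atImInfty (𝓝 (F₁ z - F₂ z)) := by
    simp_rw [hc]
    exact tendsto_const_nhds
  have h := tendsto_nhds_unique ht ht'
  linear_combination -h

/-- Subtracting the limit at `i∞` normalises an equivariant primitive. -/
theorem isNormPrimitive1_sub_const {M : ℕ} {f G : ℍ → ℂ} (hG : IsPrimitiveOf f G)
    (hE : IsEquivariantPrimitive (Gamma1pm M) G)
    (hc : ∀ δ : SL(2, ℤ), ∃ L : ℂ, Tendsto (fun w : ℍ => G (δ • w)) atImInfty (𝓝 L)) :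
    ∃ c : ℂ, IsNormPrimitive1 M f (fun w => G w - c) := by
  obtain ⟨c, hc1⟩ := hc 1
  simp only [one_smul] at hc1
  refine ⟨c, ?_, ?_, ?_, ?_⟩
  · intro τ
    have h := (hG τ).sub_const c
    exact h
  · have h := hc1.sub_const c
    rw [sub_self] at h
    exact h
  · intro γ
    obtain ⟨a, ha⟩ := hE γ
    exact ⟨a, fun z => by rw [← ha z]; ring⟩
  · intro δ
    obtain ⟨L, hL⟩ := hc δ
    exact ⟨L - c, hL.sub_const c⟩

section Hecke

variable {M p : ℕ} [NeZero M] [Fact p.Prime] (hpM : ¬ p ∣ M) (t : Twist M p)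

/-! ### The representatives `rep1 t x` on the upper half plane -/

theorem det_rep1_pos (x : OnePoint (ZMod p)) : 0 < (rep1 t x : GL (Fin 2) ℝ).val.det := by
  rw [rep1, Matrix.GeneralLinearGroup.coe_mul, Matrix.det_mul, val_det_mapGL, one_mul]
  exact det_heckeRep_pos p x

theorem rep1_smul (x : OnePoint (ZMod p)) (w : ℍ) :
    rep1 t x • w = sRep p t.σ x • (heckeRep p x • w) := by
  rw [rep1, mul_smul]
  rfl

/-- The weight two slash by `rep1 t x` is the composite of the two slashes. -/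
theorem slash_rep1 (f : ℍ → ℂ) (x : OnePoint (ZMod p)) :
    f ∣[(2 : ℤ)] rep1 t x
      = (f ∣[(2 : ℤ)] (mapGL ℝ (sRep p t.σ x) : GL (Fin 2) ℝ)) ∣[(2 : ℤ)] heckeRep p x := by
  rw [rep1, SlashAction.slash_mul]

theorem twistedHecke_eq_sum_rep1 (f : ℍ → ℂ) :
    twistedHecke p 2 t.σ f = ∑ x : OnePoint (ZMod p), f ∣[(2 : ℤ)] rep1 t x := by
  rw [twistedHecke_eq_sum]
  exact Finset.sum_congr rfl fun x _ => (slash_rep1 t f x).symm

/-! ### The primitive of `T_p f` -/

/-- The candidate primitive of `T_p f`: the sum of the translates of a primitive of `f` by the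
representatives `rep1 t x`. -/
noncomputable def heckePrimitive1 (F : ℍ → ℂ) : ℍ → ℂ :=
  fun w => ∑ x : OnePoint (ZMod p), F (rep1 t x • w)

theorem isPrimitiveOf_heckePrimitive1 {f F : ℍ → ℂ} (hF : IsPrimitiveOf f F) :
    IsPrimitiveOf (twistedHecke p 2 t.σ f) (heckePrimitive1 t F) := by
  intro τ
  have h1 : (heckePrimitive1 t F ∘ ofComplex)
      = fun z : ℂ => ∑ x : OnePoint (ZMod p), ((fun w : ℍ => F (rep1 t x • w)) ∘ ofComplex) z := by
    funext z
    simp only [heckePrimitive1, Function.comp_apply]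
  have h2 : twistedHecke p 2 t.σ f τ
      = ∑ x : OnePoint (ZMod p), f (rep1 t x • τ) *
          (((rep1 t x : GL (Fin 2) ℝ).val.det : ℂ) / denom (rep1 t x) τ ^ 2) := by
    rw [twistedHecke_eq_sum_rep1, Finset.sum_apply]
    exact Finset.sum_congr rfl fun x _ =>
      slash_two_apply_of_det_pos f (det_rep1_pos t x) τ
  rw [h1, h2]
  exact HasDerivAt.fun_sum fun x _ => (hF.comp_smul (det_rep1_pos t x)) τ

/-- Equivariance of the Hecke primitive, with the explicit period. -/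
theorem heckePrimitive1_smul_sub {F : ℍ → ℂ} (hF : IsEquivariantPrimitive (Gamma1pm M) F)
    (γ : Gamma1pm M) (z : ℍ) :
    heckePrimitive1 t F ((γ : SL(2, ℤ)) • z) - heckePrimitive1 t F z
      = ∑ x : OnePoint (ZMod p), hF.period (coc1 hpM t x γ) := by
  have h1 : ∀ x : OnePoint (ZMod p),
      F (rep1 t x • ((γ : SL(2, ℤ)) • z))
        = F (rep1 t (redMatrix p (γ : SL(2, ℤ)) • x) • z) + hF.period (coc1 hpM t x γ) := by
    intro x
    have h2 : rep1 t x • ((γ : SL(2, ℤ)) • z)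
        = ((coc1 hpM t x γ : Gamma1pm M) : SL(2, ℤ)) •
            (rep1 t (redMatrix p (γ : SL(2, ℤ)) • x) • z) := by
      rw [ModularGroup.sl_moeb, ModularGroup.sl_moeb, ← mul_smul, ← mul_smul]
      exact congrArg (· • z) (coc1_spec hpM t x γ)
    rw [h2]
    have h3 := hF.sub_eq_period (coc1 hpM t x γ) (rep1 t (redMatrix p (γ : SL(2, ℤ)) • x) • z)
    linear_combination h3
  have h4 : ∑ x : OnePoint (ZMod p), F (rep1 t (redMatrix p (γ : SL(2, ℤ)) • x) • z)
      = ∑ x : OnePoint (ZMod p), F (rep1 t x • z) :=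
    Equiv.sum_comp (MulAction.toPerm (redMatrix p (γ : SL(2, ℤ))))
      (fun x => F (rep1 t x • z))
  simp only [heckePrimitive1]
  rw [Finset.sum_congr rfl fun x _ => h1 x, Finset.sum_add_distrib, h4]
  ring

include hpM in
theorem isEquivariantPrimitive_heckePrimitive1 {F : ℍ → ℂ}
    (hF : IsEquivariantPrimitive (Gamma1pm M) F) :
    IsEquivariantPrimitive (Gamma1pm M) (heckePrimitive1 t F) :=
  fun γ => ⟨_, fun z => heckePrimitive1_smul_sub hpM t hF γ z⟩

theorem tendsto_heckePrimitive1_cusp {F : ℍ → ℂ}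
    (hF : ∀ δ : SL(2, ℤ), ∃ L : ℂ, Tendsto (fun w : ℍ => F (δ • w)) atImInfty (𝓝 L))
    (δ : SL(2, ℤ)) :
    ∃ L : ℂ, Tendsto (fun w : ℍ => heckePrimitive1 t F (δ • w)) atImInfty (𝓝 L) := by
  have hp0 : p ≠ 0 := (Fact.out : p.Prime).ne_zero
  have hp1 : ¬ p ∣ 1 := fun h => (Fact.out : p.Prime).one_lt.ne' (Nat.dvd_one.mp h)
  have h : ∀ x : OnePoint (ZMod p), ∃ L : ℂ,
      Tendsto (fun w : ℍ => F (rep1 t x • (δ • w))) atImInfty (𝓝 L) := by
    intro x
    obtain ⟨g', -, hmul⟩ := heckeRep_mul (N := 1) hp1 δ (by simp) x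
    obtain ⟨L, hL⟩ := hF (sRep p t.σ x * g')
    refine ⟨L, ?_⟩
    have hGL : rep1 t x * mapGL ℝ δ
        = mapGL ℝ (sRep p t.σ x * g') * heckeRep p (redMatrix p δ • x) := by
      rw [rep1, mul_assoc, hmul, ← mul_assoc, ← map_mul]
    have h2 : ∀ w : ℍ, rep1 t x • (δ • w)
        = (sRep p t.σ x * g') • (heckeRep p (redMatrix p δ • x) • w) := by
      intro w
      rw [ModularGroup.sl_moeb, ModularGroup.sl_moeb, ← mul_smul, ← mul_smul]
      exact congrArg (· • w) hGL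
    simp_rw [h2]
    exact hL.comp (tendsto_heckeRep_smul p hp0 _)
  choose L hL using h
  exact ⟨∑ x : OnePoint (ZMod p), L x, tendsto_finsetSum _ fun x _ => hL x⟩

include hpM in
/-- **The normalised primitive of `T_p f`.** -/
theorem IsNormPrimitive1.hecke {f F : ℍ → ℂ} (hF : IsNormPrimitive1 M f F) :
    ∃ c : ℂ, IsNormPrimitive1 M (twistedHecke p 2 t.σ f) (fun w => heckePrimitive1 t F w - c) :=
  isNormPrimitive1_sub_const (isPrimitiveOf_heckePrimitive1 t hF.1)
    (isEquivariantPrimitive_heckePrimitive1 hpM t hF.2.2.1)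
    (tendsto_heckePrimitive1_cusp t hF.2.2.2)

end Hecke

/-! ### The primitive of `f ∣ τ`, `τ ∈ Γ₀(M)` -/

section Diamond

variable {M : ℕ} [NeZero M]

theorem isEquivariantPrimitive_comp_Gamma0 {F : ℍ → ℂ}
    (hF : IsEquivariantPrimitive (Gamma1pm M) F) (τ : Gamma0 M) :
    IsEquivariantPrimitive (Gamma1pm M) (fun w => F ((τ : SL(2, ℤ)) • w)) := by
  intro γ
  refine ⟨hF.period (conjBy τ γ), fun z => ?_⟩
  have h := hF.sub_eq_period (conjBy τ γ) ((τ : SL(2, ℤ)) • z)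
  have h2 : ((conjBy τ γ : Gamma1pm M) : SL(2, ℤ)) • ((τ : SL(2, ℤ)) • z)
      = (τ : SL(2, ℤ)) • ((γ : SL(2, ℤ)) • z) := by
    rw [conjBy_coe, ← mul_smul, ← mul_smul]
    congr 1
    group
  rw [h2] at h
  exact h

/-- The period of `w ↦ F (τ • w)` along `γ` is the period of `F` along `τ γ τ⁻¹`. -/
theorem comp_Gamma0_smul_sub {F : ℍ → ℂ} (hF : IsEquivariantPrimitive (Gamma1pm M) F)
    (τ : Gamma0 M) (γ : Gamma1pm M) (z : ℍ) :
    F ((τ : SL(2, ℤ)) • ((γ : SL(2, ℤ)) • z)) - F ((τ : SL(2, ℤ)) • z)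
      = hF.period (conjBy τ γ) := by
  have h := hF.sub_eq_period (conjBy τ γ) ((τ : SL(2, ℤ)) • z)
  have h2 : ((conjBy τ γ : Gamma1pm M) : SL(2, ℤ)) • ((τ : SL(2, ℤ)) • z)
      = (τ : SL(2, ℤ)) • ((γ : SL(2, ℤ)) • z) := by
    rw [conjBy_coe, ← mul_smul, ← mul_smul]
    congr 1
    group
  rw [h2] at h
  exact h

/-- **The normalised primitive of `f ∣ τ`.** -/
theorem IsNormPrimitive1.slashGamma0 {f F : ℍ → ℂ} (hF : IsNormPrimitive1 M f F)
    (τ : Gamma0 M) :
    ∃ c : ℂ, IsNormPrimitive1 M (f ∣[(2 : ℤ)] (mapGL ℝ (τ : SL(2, ℤ)) : GL (Fin 2) ℝ))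
      (fun w => F ((τ : SL(2, ℤ)) • w) - c) := by
  refine isNormPrimitive1_sub_const (G := fun w => F ((τ : SL(2, ℤ)) • w)) ?_
    (isEquivariantPrimitive_comp_Gamma0 hF.2.2.1 τ) ?_
  · exact hF.1.comp_SL (τ : SL(2, ℤ))
  · intro δ
    obtain ⟨L, hL⟩ := hF.2.2.2 ((τ : SL(2, ℤ)) * δ)
    refine ⟨L, hL.congr fun w => ?_⟩
    rw [mul_smul]

end Diamond

/-! ### Abstract period maps -/

section Spec

variable {M : ℕ} [NeZero M]

/-- A map `P` from weight two cusp forms on `Γ₁(M)` to additive characters of `±Γ₁(M)` *is a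
period map* if every cusp form has a normalised equivariant primitive and `P f` is computed by
any such primitive, at any base point. -/
structure PeriodSpec (P : CuspForm (Gamma1 M) 2 → (Additive (Gamma1pm M) →+ ℂ)) : Prop where
  /-- existence of normalised primitives -/
  ex : ∀ f : CuspForm (Gamma1 M) 2, ∃ F : ℍ → ℂ, IsNormPrimitive1 M (⇑f) F
  /-- `P f` is the period of the primitive -/
  apply : ∀ (f : CuspForm (Gamma1 M) 2) (F : ℍ → ℂ), IsNormPrimitive1 M (⇑f) F →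
    ∀ (γ : Gamma1pm M) (z : ℍ), P f (Additive.ofMul γ) = F ((γ : SL(2, ℤ)) • z) - F z

variable {P : CuspForm (Gamma1 M) 2 → (Additive (Gamma1pm M) →+ ℂ)}

theorem PeriodSpec.apply_eq_period (hP : PeriodSpec P) {f : CuspForm (Gamma1 M) 2} {F : ℍ → ℂ}
    (hF : IsNormPrimitive1 M (⇑f) F) (γ : Gamma1pm M) :
    P f (Additive.ofMul γ) = hF.2.2.1.period γ := by
  rw [hP.apply f F hF γ UpperHalfPlane.I]
  rfl

/-- The function `T_p f` computed with an arbitrary twist. -/
theorem coe_heckeTLin_eq_twistedHecke {p : ℕ} (hp : p.Prime) (hpM : ¬ p ∣ M)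
    (f : CuspForm (Gamma1 M) 2) {σ : SL(2, ℤ)} (hσ : σ ∈ Gamma0 M)
    (hσp : lr M σ = (p : ZMod M)) :
    ⇑(Hecke1.heckeTLin 2 hp hpM f) = twistedHecke p 2 σ ⇑f := by
  rw [Hecke1.coe_heckeTLin']
  have h : (⇑f) ∣[(2 : ℤ)] (mapGL ℝ (Hecke1.diamRep (Hecke1.primeUnit hp hpM)) : GL (Fin 2) ℝ)
      = (⇑f) ∣[(2 : ℤ)] (mapGL ℝ σ : GL (Fin 2) ℝ) :=
    slash_eq_of_lowerRight_eq 2 (Hecke1.slash_Gamma1' f) (Hecke1.diamRep_mem _) hσ
      ((Hecke1.diamRep_lowerRight _).trans ((Hecke1.coe_primeUnit hp hpM).trans hσp.symm))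
  rw [twistedHecke, twistedHecke, h]

/-- **(b1.4), Hecke operators, pointwise form.** -/
theorem PeriodSpec.heckeTLin_apply (hP : PeriodSpec P) {p : ℕ} [Fact p.Prime] (hp : p.Prime)
    (hpM : ¬ p ∣ M) (t : Twist M p) (f : CuspForm (Gamma1 M) 2) (γ : Gamma1pm M) :
    P (Hecke1.heckeTLin 2 hp hpM f) (Additive.ofMul γ)
      = ∑ x : OnePoint (ZMod p), P f (Additive.ofMul (coc1 hpM t x γ)) := by
  obtain ⟨F, hF⟩ := hP.ex f
  obtain ⟨c, hc⟩ := hF.hecke hpM t
  rw [← coe_heckeTLin_eq_twistedHecke hp hpM f t.mem t.lr_eq] at hc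
  rw [hP.apply _ _ hc γ UpperHalfPlane.I]
  have h := heckePrimitive1_smul_sub hpM t hF.2.2.1 γ UpperHalfPlane.I
  rw [show heckePrimitive1 t F ((γ : SL(2, ℤ)) • UpperHalfPlane.I) - c
      - (heckePrimitive1 t F UpperHalfPlane.I - c)
      = heckePrimitive1 t F ((γ : SL(2, ℤ)) • UpperHalfPlane.I)
        - heckePrimitive1 t F UpperHalfPlane.I by ring, h]
  exact Finset.sum_congr rfl fun x _ => (hP.apply_eq_period hF _).symm

/-- **(b1.4), Hecke operators.** The period map intertwines `T_p` on `S₂(Γ₁(M))` with the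
cohomological Hecke operator `heckeHom1` (for every choice of the twist `t`). -/
theorem PeriodSpec.heckeTLin (hP : PeriodSpec P) {p : ℕ} [Fact p.Prime] (hp : p.Prime)
    (hpM : ¬ p ∣ M) (t : Twist M p) (f : CuspForm (Gamma1 M) 2) :
    P (Hecke1.heckeTLin 2 hp hpM f) = heckeHom1 hpM t ℂ (P f) := by
  refine AddMonoidHom.ext fun γ => ?_
  have h := hP.heckeTLin_apply hp hpM t f (Additive.toMul γ)
  rw [ofMul_toMul] at h
  rw [h, ← heckeHom1_apply, ofMul_toMul]

/-- **(b1.4), diamond operators, pointwise form.** -/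
theorem PeriodSpec.diamLin_apply (hP : PeriodSpec P) (d : (ZMod M)ˣ) (τ : Gamma0 M)
    (hτ : lr M (τ : SL(2, ℤ)) = (d : ZMod M)) (f : CuspForm (Gamma1 M) 2) (γ : Gamma1pm M) :
    P (Hecke1.diamLin d f) (Additive.ofMul γ) = P f (Additive.ofMul (conjBy τ γ)) := by
  obtain ⟨F, hF⟩ := hP.ex f
  obtain ⟨c, hc⟩ := hF.slashGamma0 τ
  rw [← Hecke1.coe_diamLin_eq d f τ.2 hτ] at hc
  rw [hP.apply _ _ hc γ UpperHalfPlane.I, hP.apply_eq_period hF,
    ← comp_Gamma0_smul_sub hF.2.2.1 τ γ UpperHalfPlane.I]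
  ring

/-- **(b1.4), diamond operators.** The period map intertwines `⟨d⟩` on `S₂(Γ₁(M))` with the
cohomological diamond operator `diamHom τ`, for every `τ ∈ Γ₀(M)` with lower right entry `d`. -/
theorem PeriodSpec.diamLin (hP : PeriodSpec P) (d : (ZMod M)ˣ) (τ : Gamma0 M)
    (hτ : lr M (τ : SL(2, ℤ)) = (d : ZMod M)) (f : CuspForm (Gamma1 M) 2) :
    P (Hecke1.diamLin d f) = diamHom τ ℂ (P f) := by
  refine AddMonoidHom.ext fun γ => ?_
  have h := hP.diamLin_apply d τ hτ f (Additive.toMul γ)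
  rw [ofMul_toMul] at h
  rw [h, ← diamHom_apply, ofMul_toMul]

end Spec

end Fermat.Agent.S48x.G1.CP1
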