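import Mathlib
import Fermat.Agent.S48x.G1.Hecke.CohPeriod1
import Fermat.Agent.S48x.G1.ES1.Exists

/-!
# P-S48, G1 (b1.4-A): `periodMap1 (T_p f) = heckeHom1 (periodMap1 f)`  (helper9)

Final form of `Hecke/CohPeriod1.lean` (namespace `CP1`) for helper4's period map `periodMap1` of `±Γ₁(M)`
(`ES1/Defs.lean`, `ES1/Exists.lean`).

* `periodSpec_periodMap1 : PeriodSpec (periodMap1 M)`;
* `periodMap1_heckeTLin hp hpM t f :
    periodMap1 M (Hecke1.heckeTLin 2 hp hpM f) = heckeHom1 hpM t ℂ (periodMap1 M f)`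
  for EVERY twist `t : Twist M p` (+ pointwise form, + `periodMapLinear1` form);
* `stdTwist hp hpM : Twist M p`, the twist used by `Hecke1.heckeTLin`;
* `heckeHom1_twist_indep hpM t t' A : heckeHom1 hpM t A = heckeHom1 hpM t' A`;
* `periodMap1_diamLin'` : the diamond statement re-derived from `PeriodSpec.diamLin`
  (same statement as helper62's `periodMap1_diamLin` in `Hecke/CohPeriodDiam.lean`).
-/

set_option autoImplicit false
set_option linter.unusedSectionVars false

open CongruenceSubgroup Matrix.SpecialLinearGroup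
open P2MW.S_ModularForm_heckeT_slash_eq_self_of_mem_Gamma0.ModularForm.HeckeSlashInvariance
open Fermat.Agent.Gateway.HeckeCoh
open Fermat.Agent.S48x.Nebentypus (sRep sRep_infty sRep_coe)
open scoped MatrixGroups

namespace Fermat.Agent.S48x.G1

open Fermat.Agent.S48x.G1.CP1

section Main

variable (M : ℕ) [NeZero M]

/-- helper4's `periodMap1` is a period map in the sense of `PeriodSpec`. -/
theorem periodSpec_periodMap1 : PeriodSpec (periodMap1 M) where
  ex f := exists_hasEquivariantPrimitive1 M f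
  apply _ _ hF γ z := periodMap1_apply M hF γ z

variable {M}

/-- **(b1.4-A), pointwise form.** The period of `T_p f` along `γ` is the sum of the periods of
`f` along the Hecke cocycle `coc1 hpM t x γ`. -/
theorem periodMap1_heckeTLin_apply {p : ℕ} [Fact p.Prime] (hp : p.Prime) (hpM : ¬ p ∣ M)
    (t : Twist M p) (f : CuspForm (Gamma1 M) 2) (γ : Gamma1pm M) :
    periodMap1 M (Hecke1.heckeTLin 2 hp hpM f) (Additive.ofMul γ)
      = ∑ x : OnePoint (ZMod p), periodMap1 M f (Additive.ofMul (coc1 hpM t x γ)) :=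
  (periodSpec_periodMap1 M).heckeTLin_apply hp hpM t f γ

/-- **(b1.4-A).** The period map of `S₂(Γ₁(M))` intertwines the Hecke operator `T_p`, `p ∤ M`,
with the cohomological Hecke operator `heckeHom1 hpM t` on `Hom(±Γ₁(M), ℂ)`, for every twist
`t`. -/
theorem periodMap1_heckeTLin {p : ℕ} [Fact p.Prime] (hp : p.Prime) (hpM : ¬ p ∣ M)
    (t : Twist M p) (f : CuspForm (Gamma1 M) 2) :
    periodMap1 M (Hecke1.heckeTLin 2 hp hpM f) = heckeHom1 hpM t ℂ (periodMap1 M f) :=
  (periodSpec_periodMap1 M).heckeTLin hp hpM t f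

/-- **(b1.4-A), linear form.** -/
theorem periodMapLinear1_heckeTLin {p : ℕ} [Fact p.Prime] (hp : p.Prime) (hpM : ¬ p ∣ M)
    (t : Twist M p) (f : CuspForm (Gamma1 M) 2) :
    periodMapLinear1 M (Hecke1.heckeTLin 2 hp hpM f)
      = heckeHom1 hpM t ℂ (periodMapLinear1 M f) :=
  periodMap1_heckeTLin hp hpM t f

/-- The diamond statement, from `PeriodSpec.diamLin`. -/
theorem periodMap1_diamLin' (d : (ZMod M)ˣ) (τ : Gamma0 M)
    (hτ : lr M (τ : SL(2, ℤ)) = (d : ZMod M)) (f : CuspForm (Gamma1 M) 2) :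
    periodMap1 M (Hecke1.diamLin d f) = diamHom τ ℂ (periodMap1 M f) :=
  (periodSpec_periodMap1 M).diamLin d τ hτ f

/-- **(b1.4-B), linear form.** -/
theorem periodMapLinear1_diamLin (d : (ZMod M)ˣ) (τ : Gamma0 M)
    (hτ : lr M (τ : SL(2, ℤ)) = (d : ZMod M)) (f : CuspForm (Gamma1 M) 2) :
    periodMapLinear1 M (Hecke1.diamLin d f) = diamHom τ ℂ (periodMapLinear1 M f) :=
  periodMap1_diamLin' d τ hτ f

/-- The twist used in the definition of `Hecke1.heckeTLin`. -/
noncomputable def stdTwist {p : ℕ} (hp : p.Prime) (hpM : ¬ p ∣ M) : Twist M p where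
  σ := Hecke1.diamRep (Hecke1.primeUnit hp hpM)
  mem := Hecke1.diamRep_mem _
  lr_eq := (Hecke1.diamRep_lowerRight _).trans (Hecke1.coe_primeUnit hp hpM)

end Main

/-! ### Independence of the twist -/

section Indep

variable {M p : ℕ} [NeZero M] [Fact p.Prime] (hpM : ¬ p ∣ M) (t t' : Twist M p)

/-- The quotient of two twists lies in `±Γ₁(M)` (even in `Γ₁(M)`). -/
theorem twist_mul_inv_mem : t'.σ * t.σ⁻¹ ∈ Gamma1pm M := by
  refine ⟨(Gamma0 M).mul_mem t'.mem ((Gamma0 M).inv_mem t.mem), Or.inl ?_⟩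
  rw [lr_mul t'.mem, t'.lr_eq, ← t.lr_eq, lr_mul_lr_inv t.mem]

/-- The correction elements: `t'.σ * t.σ⁻¹` at `∞`, `1` at the finite points. -/
noncomputable def twistCorr (x : OnePoint (ZMod p)) : Gamma1pm M :=
  x.elim ⟨t'.σ * t.σ⁻¹, twist_mul_inv_mem t t'⟩ (fun _ => 1)

theorem sRep_eq_twistCorr_mul (x : OnePoint (ZMod p)) :
    sRep p t'.σ x = ((twistCorr t t' x : Gamma1pm M) : SL(2, ℤ)) * sRep p t.σ x := by
  induction x using OnePoint.rec with
  | infty =>
    show t'.σ = t'.σ * t.σ⁻¹ * t.σ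
    rw [inv_mul_cancel_right]
  | coe j =>
    show (1 : SL(2, ℤ)) = ((1 : Gamma1pm M) : SL(2, ℤ)) * 1
    simp

theorem coc1_twist (x : OnePoint (ZMod p)) (γ : Gamma1pm M) :
    coc1 hpM t' x γ
      = twistCorr t t' x * coc1 hpM t x γ *
          (twistCorr t t' (redMatrix p (γ : SL(2, ℤ)) • x))⁻¹ := by
  apply Subtype.ext
  rw [Subgroup.coe_mul, Subgroup.coe_mul, Subgroup.coe_inv, coc1_coe, coc1_coe,
    sRep_eq_twistCorr_mul t t' x, sRep_eq_twistCorr_mul t t' (redMatrix p (γ : SL(2, ℤ)) • x)]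
  group

/-- **`heckeHom1` does not depend on the twist.** -/
theorem heckeHom1_twist_indep (A : Type*) [AddCommGroup A] :
    heckeHom1 hpM t A = heckeHom1 hpM t' A := by
  refine AddMonoidHom.ext fun φ => AddMonoidHom.ext fun γ' => ?_
  obtain ⟨γ, rfl⟩ : ∃ γ : Gamma1pm M, Additive.ofMul γ = γ' := ⟨Additive.toMul γ', rfl⟩
  rw [heckeHom1_apply, heckeHom1_apply]
  have h1 : ∀ x : OnePoint (ZMod p),
      φ (Additive.ofMul (coc1 hpM t' x γ))
        = φ (Additive.ofMul (twistCorr t t' x)) + φ (Additive.ofMul (coc1 hpM t x γ))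
          - φ (Additive.ofMul (twistCorr t t' (redMatrix p (γ : SL(2, ℤ)) • x))) := by
    intro x
    rw [coc1_twist hpM t t' x γ, ofMul_mul, ofMul_mul, ofMul_inv, map_add, map_add, map_neg]
    abel
  have h2 : ∑ x : OnePoint (ZMod p),
        φ (Additive.ofMul (twistCorr t t' (redMatrix p (γ : SL(2, ℤ)) • x)))
      = ∑ x : OnePoint (ZMod p), φ (Additive.ofMul (twistCorr t t' x)) :=
    Equiv.sum_comp (MulAction.toPerm (redMatrix p (γ : SL(2, ℤ))))
      (fun x => φ (Additive.ofMul (twistCorr t t' x)))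
  rw [Finset.sum_congr rfl fun x _ => h1 x, Finset.sum_sub_distrib, Finset.sum_add_distrib, h2]
  abel

end Indep

end Fermat.Agent.S48x.G1
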