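import Fermat.Agent.S48x.G1.Hecke.Coh1
import Fermat.Agent.S48x.G1.ES1.Exists
import Fermat.Agent.S48x.Hecke1.Diamond

/-!
# P-S48, G1 (b1.4), diamond half: the period map of `S₂(Γ₁(M))` intertwines the diamond
operators with `diamHom` (helper14)

For `τ ∈ Γ₀(M)` and a weight two cusp form `f` on `Γ₁(M)` with equivariant primitive `F`, the
function `w ↦ F (τ • w) - lim` is the equivariant primitive of `f ∣[2] τ`, and its period along
`γ ∈ ±Γ₁(M)` is the period of `F` along `τ γ τ⁻¹`.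

* `hasEquivariantPrimitive1_slash` : the primitive of `f ∣[2] τ`;
* `periodMap1_of_slash` : `periodMap1 M g = diamHom τ ℂ (periodMap1 M f)` whenever `⇑g = ⇑f ∣[2] τ`;
(All names live in the namespace `Fermat.Agent.S48x.G1.CohPeriodDiam1`.)

* `periodMap1_diamLin` : the case `g = diamLin d f` (helper62's diamond operator), for every
  `τ ∈ Γ₀(M)` with lower right entry `≡ d`.
-/

set_option autoImplicit false
set_option linter.unusedSectionVars false

open Complex Filter Function Topology CongruenceSubgroup ModularForm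
open UpperHalfPlane hiding I
open Matrix.SpecialLinearGroup
open Fermat.Agent.S21
open scoped Manifold Real MatrixGroups

namespace Fermat.Agent.S48x.G1.CohPeriodDiam1

open Fermat.Agent.S48x.G1

variable (M : ℕ) [NeZero M]

/-- The equivariant primitive of `f ∣[2] τ`, `τ ∈ Γ₀(M)`. -/
theorem hasEquivariantPrimitive1_slash {f g : CuspForm (Gamma1 M) 2} {F : ℍ → ℂ}
    (hF : HasEquivariantPrimitive1 M f F) (τ : Gamma0 M)
    (hg : (⇑g : ℍ → ℂ) = (⇑f) ∣[(2 : ℤ)] (τ : SL(2, ℤ))) :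
    ∃ L : ℂ, HasEquivariantPrimitive1 M g (fun w => F ((τ : SL(2, ℤ)) • w) - L) := by
  obtain ⟨L, hL⟩ := hF.2.2.2 (τ : SL(2, ℤ))
  refine ⟨L, ?_, ?_, ?_, ?_⟩
  · -- primitive
    have h1 : IsPrimitiveOf ((⇑f) ∣[(2 : ℤ)] (τ : SL(2, ℤ))) (fun w => F ((τ : SL(2, ℤ)) • w)) :=
      IsPrimitiveOf.comp_SL hF.1 (τ : SL(2, ℤ))
    intro z
    have h2 := (h1 z).sub_const L
    rw [← hg] at h2
    exact h2
  · -- limit at `i∞`
    have h1 : Tendsto (fun w : ℍ => F ((τ : SL(2, ℤ)) • w) - L) atImInfty (𝓝 (L - L)) :=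
      hL.sub_const L
    rwa [sub_self] at h1
  · -- equivariance
    intro γ
    refine ⟨hF.2.2.1.period (conjBy τ γ), fun z => ?_⟩
    have h1 := hF.2.2.1.sub_eq_period (conjBy τ γ) ((τ : SL(2, ℤ)) • z)
    have h2 : ((conjBy τ γ : Gamma1pm M) : SL(2, ℤ)) • ((τ : SL(2, ℤ)) • z) =
        (τ : SL(2, ℤ)) • ((γ : SL(2, ℤ)) • z) := by
      rw [conjBy_coe, ← mul_smul, ← mul_smul, inv_mul_cancel_right]
    rw [h2] at h1
    show F ((τ : SL(2, ℤ)) • ((γ : SL(2, ℤ)) • z)) - L - (F ((τ : SL(2, ℤ)) • z) - L) = _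
    rw [← h1]
    ring
  · -- limits at all cusps
    intro δ
    obtain ⟨L', hL'⟩ := hF.2.2.2 ((τ : SL(2, ℤ)) * δ)
    refine ⟨L' - L, ?_⟩
    have h1 : Tendsto (fun w : ℍ => F (((τ : SL(2, ℤ)) * δ) • w) - L) atImInfty (𝓝 (L' - L)) :=
      hL'.sub_const L
    refine h1.congr fun w => ?_
    rw [mul_smul]

/-- The period map intertwines `f ↦ f ∣[2] τ` (`τ ∈ Γ₀(M)`) with `diamHom τ`. -/
theorem periodMap1_of_slash (f g : CuspForm (Gamma1 M) 2) (τ : Gamma0 M)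
    (hg : (⇑g : ℍ → ℂ) = (⇑f) ∣[(2 : ℤ)] (τ : SL(2, ℤ))) :
    periodMap1 M g = diamHom τ ℂ (periodMap1 M f) := by
  obtain ⟨F, hF⟩ := exists_hasEquivariantPrimitive1 M f
  obtain ⟨L, hG⟩ := hasEquivariantPrimitive1_slash M hF τ hg
  refine AddMonoidHom.ext fun γ => ?_
  obtain ⟨γ, rfl⟩ := Additive.ofMul.surjective γ
  rw [diamHom_apply, periodMap1_apply M hG γ UpperHalfPlane.I,
    periodMap1_apply M hF (conjBy τ γ) ((τ : SL(2, ℤ)) • UpperHalfPlane.I)]
  have h2 : ((conjBy τ γ : Gamma1pm M) : SL(2, ℤ)) • ((τ : SL(2, ℤ)) • UpperHalfPlane.I) =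
      (τ : SL(2, ℤ)) • ((γ : SL(2, ℤ)) • UpperHalfPlane.I) := by
    rw [conjBy_coe, ← mul_smul, ← mul_smul, inv_mul_cancel_right]
  rw [h2]
  ring

/-- **Diamond equivariance of the period map**: `periodMap1 (⟨d⟩ f) = diamHom τ (periodMap1 f)` for
every `τ ∈ Γ₀(M)` with lower right entry `≡ d`. -/
theorem periodMap1_diamLin (d : (ZMod M)ˣ) (τ : Gamma0 M)
    (hτ : lr M (τ : SL(2, ℤ)) = (d : ZMod M)) (f : CuspForm (Gamma1 M) 2) :
    periodMap1 M (Fermat.Agent.S48x.Hecke1.diamLin d f) = diamHom τ ℂ (periodMap1 M f) := by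
  apply periodMap1_of_slash M f _ τ
  exact Fermat.Agent.S48x.Hecke1.coe_diamLin_eq d f τ.2 hτ

end Fermat.Agent.S48x.G1.CohPeriodDiam1
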