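import Mathlib
import Fermat.Agent.S48x.G1.Hecke.Coh1
import Fermat.Agent.S48x.G1.ES1.Exists
import Fermat.Agent.S48x.Hecke1.Diamond

/-!
# P-S48, G1 (b1.4-B): the period map of `S₂(Γ₁(M))` intertwines the diamond operators (helper62)

For `τ ∈ Γ₀(M)` with lower right entry `≡ d` and `f ∈ S₂(Γ₁(M))`:
`periodMap1 (⟨d⟩ f) = diamHom τ (periodMap1 f)`, i.e. the period of `⟨d⟩ f = f ∣ τ` along `γ` is the
period of `f` along `τ γ τ⁻¹`.

* `hasEquivariantPrimitive1_slashGamma0` : if `F` is the equivariant primitive of `f`, then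
  `w ↦ F (τ • w) - L` (`L` the limit of `F ∘ τ` at `i∞`) is the equivariant primitive of `f ∣ τ`;
* `periodMap1_slashGamma0`, `periodMap1_diamLin`.
-/

set_option autoImplicit false
set_option linter.unusedSectionVars false

namespace Fermat.Agent.S48x.G1

open CongruenceSubgroup Matrix.SpecialLinearGroup UpperHalfPlane Filter Topology
open ModularCurve.Period
open Fermat.Agent.S21
open scoped MatrixGroups ModularForm

variable {M : ℕ} [NeZero M]

/-- The translate of the equivariant primitive by `τ ∈ Γ₀(M)`, normalised at `i∞`, is the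
equivariant primitive of `f ∣ τ`. -/
theorem hasEquivariantPrimitive1_slashGamma0 {f : CuspForm (Gamma1 M) 2} {F : ℍ → ℂ}
    (hF : HasEquivariantPrimitive1 M f F) (τ : Gamma0 M) {L : ℂ}
    (hL : Tendsto (fun w : ℍ => F ((τ : SL(2, ℤ)) • w)) atImInfty (𝓝 L)) :
    HasEquivariantPrimitive1 M (Hecke1.slashGamma0 f (τ : SL(2, ℤ)) τ.2)
      (fun w => F ((τ : SL(2, ℤ)) • w) - L) := by
  refine ⟨?_, ?_, ?_, ?_⟩
  · have h1 : IsPrimitiveOf (⇑f ∣[(2 : ℤ)] (τ : SL(2, ℤ))) (fun w => F ((τ : SL(2, ℤ)) • w)) :=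
      IsPrimitiveOf.comp_SL hF.1 τ
    intro z
    have h2 := (h1 z).sub_const L
    exact h2
  · have h := hL.sub_const L
    rw [sub_self] at h
    exact h
  · intro γ
    refine ⟨periodMap1 M f (Additive.ofMul (conjBy τ γ)), fun z => ?_⟩
    have h := periodMap1_apply M hF (conjBy τ γ) ((τ : SL(2, ℤ)) • z)
    rw [h, conjBy_coe]
    have e : ((τ : SL(2, ℤ)) * (γ : SL(2, ℤ)) * (τ : SL(2, ℤ))⁻¹) • ((τ : SL(2, ℤ)) • z) =
        (τ : SL(2, ℤ)) • ((γ : SL(2, ℤ)) • z) := by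
      rw [← mul_smul, ← mul_smul, inv_mul_cancel_right]
    rw [e]
    ring
  · intro δ
    obtain ⟨L', hL'⟩ := hF.2.2.2 ((τ : SL(2, ℤ)) * δ)
    refine ⟨L' - L, ?_⟩
    have h := hL'.sub_const L
    refine h.congr fun w => ?_
    rw [mul_smul]

/-- The period of `f ∣ τ` along `γ` is the period of `f` along `τ γ τ⁻¹`. -/
theorem periodMap1_slashGamma0 (f : CuspForm (Gamma1 M) 2) (τ : Gamma0 M) :
    periodMap1 M (Hecke1.slashGamma0 f (τ : SL(2, ℤ)) τ.2) = diamHom τ ℂ (periodMap1 M f) := by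
  obtain ⟨F, hF⟩ := exists_hasEquivariantPrimitive1 M f
  obtain ⟨L, hL⟩ := hF.2.2.2 (τ : SL(2, ℤ))
  have hG := hasEquivariantPrimitive1_slashGamma0 hF τ hL
  refine AddMonoidHom.ext fun γ' => ?_
  obtain ⟨γ, rfl⟩ : ∃ γ : Gamma1pm M, Additive.ofMul γ = γ' := ⟨Additive.toMul γ', rfl⟩
  rw [periodMap1_apply M hG γ UpperHalfPlane.I, diamHom_apply,
    periodMap1_apply M hF (conjBy τ γ) ((τ : SL(2, ℤ)) • UpperHalfPlane.I), conjBy_coe]
  have e : ((τ : SL(2, ℤ)) * (γ : SL(2, ℤ)) * (τ : SL(2, ℤ))⁻¹) •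
      ((τ : SL(2, ℤ)) • UpperHalfPlane.I) =
        (τ : SL(2, ℤ)) • ((γ : SL(2, ℤ)) • UpperHalfPlane.I) := by
    rw [← mul_smul, ← mul_smul, inv_mul_cancel_right]
  rw [e]
  ring

/-- **(b1.4-B)** The period map intertwines the diamond operator `⟨d⟩` on `S₂(Γ₁(M))` with
`diamHom τ`, for every `τ ∈ Γ₀(M)` with lower right entry `≡ d`. -/
theorem periodMap1_diamLin (d : (ZMod M)ˣ) (τ : Gamma0 M) (h : lr M (τ : SL(2, ℤ)) = (d : ZMod M))
    (f : CuspForm (Gamma1 M) 2) :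
    periodMap1 M (Hecke1.diamLin d f) = diamHom τ ℂ (periodMap1 M f) := by
  rw [Hecke1.diamLin_eq_slashGamma0 d f τ.2 h, periodMap1_slashGamma0]

/-- `diamHom τ` on the image of the period map only depends on the lower right entry of `τ`. -/
theorem diamHom_periodMap1_congr {τ τ' : Gamma0 M}
    (h : lr M (τ : SL(2, ℤ)) = lr M (τ' : SL(2, ℤ))) (f : CuspForm (Gamma1 M) 2) :
    diamHom τ ℂ (periodMap1 M f) = diamHom τ' ℂ (periodMap1 M f) := by
  rw [← periodMap1_slashGamma0, ← periodMap1_slashGamma0,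
    Hecke1.slashGamma0_congr f τ.2 τ'.2 h]

end Fermat.Agent.S48x.G1
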