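import Mathlib
import Fermat.Agent.S48x.G1.Hecke.CohPeriodDiam
import Fermat.Agent.S48x.Hecke1.Operator
import Fermat.Agent.Gateway.Hecke.CohPeriod

/-!
# P-S48, G1 (b1.4-A): the period map of `S₂(Γ₁(M))` intertwines `T_p` with `heckeHom1` (helper62)

For `p ∤ M` prime, every twist `t : Twist M p` and `f ∈ S₂(Γ₁(M))`:
`periodMap1 (T_p f) = heckeHom1 t (periodMap1 f)` (`periodMap1_heckeTLin_twist`).
The primitive of `T_p f` is `w ↦ ∑ x, F (rep1 t x • w) - L` (`heckePrimitive1`), `L` its limit at `i∞`.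
-/

set_option autoImplicit false
set_option linter.unusedSectionVars false

namespace Fermat.Agent.S48x.G1

open CongruenceSubgroup Matrix.SpecialLinearGroup UpperHalfPlane Filter Topology
open ModularCurve.Period
open Fermat.Agent.S21
open Fermat.Agent.Gateway.HeckeCohPeriod
open Fermat.Agent.S48x.Nebentypus (sRep sRep_infty sRep_coe twistedHecke twistedHecke_eq_sum)
open P2MW.S_ModularForm_heckeT_slash_eq_self_of_mem_Gamma0.ModularForm.HeckeSlashInvariance
open scoped MatrixGroups ModularForm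

variable {M p : ℕ} [NeZero M] [Fact p.Prime] (hpM : ¬ p ∣ M) (t : Twist M p)

theorem det_rep1_pos (x : OnePoint (ZMod p)) : 0 < (rep1 t x : GL (Fin 2) ℝ).val.det := by
  have h : (rep1 t x : GL (Fin 2) ℝ).val.det =
      (mapGL ℝ (sRep p t.σ x) : GL (Fin 2) ℝ).val.det * (heckeRep p x : GL (Fin 2) ℝ).val.det := by
    rw [rep1, Units.val_mul, Matrix.det_mul]
  rw [h, val_det_mapGL, one_mul]
  exact det_heckeRep_pos p x

/-- The candidate primitive of `T_p f` on `Γ₁(M)`. -/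
noncomputable def heckePrimitive1 (F : ℍ → ℂ) : ℍ → ℂ :=
  fun w => ∑ x : OnePoint (ZMod p), F (rep1 t x • w)

/-- The function `T_p f` as the sum of the slashes by the `rep1 t x`. -/
theorem coe_heckeTLin_eq_sum (f : CuspForm (Gamma1 M) 2) :
    ⇑(Hecke1.heckeTLin 2 (Fact.out : p.Prime) hpM f) =
      ∑ x : OnePoint (ZMod p), (⇑f) ∣[(2 : ℤ)] (rep1 t x) := by
  have h1 : ⇑(Hecke1.diamLin (Hecke1.primeUnit (Fact.out : p.Prime) hpM) f) =
      (⇑f) ∣[(2 : ℤ)] (mapGL ℝ t.σ : GL (Fin 2) ℝ) :=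
    Hecke1.coe_diamLin_eq _ f t.mem (by rw [Hecke1.coe_primeUnit]; exact t.lr_eq)
  rw [Hecke1.coe_heckeTLin, h1]
  have h2 := twistedHecke_eq_sum p 2 t.σ ⇑f
  rw [twistedHecke] at h2
  rw [h2]
  refine Finset.sum_congr rfl fun x _ => ?_
  rw [rep1, SlashAction.slash_mul]

theorem isPrimitiveOf_heckePrimitive1 {f : CuspForm (Gamma1 M) 2} {F : ℍ → ℂ}
    (hF : IsPrimitiveOf f F) :
    IsPrimitiveOf (⇑(Hecke1.heckeTLin 2 (Fact.out : p.Prime) hpM f)) (heckePrimitive1 t F) := by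
  intro τ
  have h1 : (heckePrimitive1 t F ∘ ofComplex)
      = fun z : ℂ => ∑ x : OnePoint (ZMod p), ((fun w : ℍ => F (rep1 t x • w)) ∘ ofComplex) z := by
    funext z
    simp only [heckePrimitive1, Function.comp_apply]
  have h2 : (Hecke1.heckeTLin 2 (Fact.out : p.Prime) hpM f) τ
      = ∑ x : OnePoint (ZMod p), f (rep1 t x • τ) *
          (((rep1 t x : GL (Fin 2) ℝ).val.det : ℂ) / denom (rep1 t x) τ ^ 2) := by
    rw [coe_heckeTLin_eq_sum hpM t f, Finset.sum_apply]
    exact Finset.sum_congr rfl fun x _ =>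
      slash_two_apply_of_det_pos (⇑f) (det_rep1_pos t x) τ
  rw [h1, h2]
  exact HasDerivAt.fun_sum fun x _ => (hF.comp_smul (det_rep1_pos t x)) τ

theorem rep1_smul (x : OnePoint (ZMod p)) (w : ℍ) :
    rep1 t x • w = (sRep p t.σ x) • (heckeRep p x • w) := by
  rw [rep1, mul_smul]
  rfl

/-- Limits of the Hecke primitive at all cusps. -/
theorem tendsto_heckePrimitive1_cusp {F : ℍ → ℂ}
    (hF : ∀ δ : SL(2, ℤ), ∃ L : ℂ, Tendsto (fun w : ℍ => F (δ • w)) atImInfty (𝓝 L))
    (δ : SL(2, ℤ)) :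
    ∃ L : ℂ, Tendsto (fun w : ℍ => heckePrimitive1 t F (δ • w)) atImInfty (𝓝 L) := by
  have hl0 : p ≠ 0 := (Fact.out : p.Prime).ne_zero
  have hl1 : ¬ p ∣ 1 := fun h => (Fact.out : p.Prime).one_lt.ne' (Nat.dvd_one.mp h)
  have h : ∀ x : OnePoint (ZMod p), ∃ L : ℂ,
      Tendsto (fun w : ℍ => F (rep1 t x • (δ • w))) atImInfty (𝓝 L) := by
    intro x
    obtain ⟨g', -, hmul⟩ := heckeRep_mul (N := 1) hl1 δ (by simp) x
    obtain ⟨L, hL⟩ := hF (sRep p t.σ x * g')
    refine ⟨L, ?_⟩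
    have h2 : ∀ w : ℍ, rep1 t x • (δ • w) =
        (sRep p t.σ x * g') • (heckeRep p (redMatrix p δ • x) • w) := by
      intro w
      rw [rep1_smul, mul_smul]
      congr 1
      rw [ModularGroup.sl_moeb, ModularGroup.sl_moeb, ← mul_smul, ← mul_smul]
      exact congrArg (· • w) hmul
    simp_rw [h2]
    exact hL.comp (tendsto_heckeRep_smul p hl0 _)
  choose L hL using h
  exact ⟨∑ x : OnePoint (ZMod p), L x, tendsto_finsetSum _ fun x _ => hL x⟩

/-- Equivariance of the Hecke primitive, with the explicit period. -/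
theorem heckePrimitive1_smul_sub {f : CuspForm (Gamma1 M) 2} {F : ℍ → ℂ}
    (hF : HasEquivariantPrimitive1 M f F) (γ : Gamma1pm M) (z : ℍ) :
    heckePrimitive1 t F ((γ : SL(2, ℤ)) • z) - heckePrimitive1 t F z
      = ∑ x : OnePoint (ZMod p), periodMap1 M f (Additive.ofMul (coc1 hpM t x γ)) := by
  have h1 : ∀ x : OnePoint (ZMod p),
      F (rep1 t x • ((γ : SL(2, ℤ)) • z))
        = F (rep1 t (redMatrix p (γ : SL(2, ℤ)) • x) • z) +
          periodMap1 M f (Additive.ofMul (coc1 hpM t x γ)) := by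
    intro x
    have h2 : rep1 t x • ((γ : SL(2, ℤ)) • z)
        = ((coc1 hpM t x γ : Gamma1pm M) : SL(2, ℤ)) •
          (rep1 t (redMatrix p (γ : SL(2, ℤ)) • x) • z) := by
      rw [ModularGroup.sl_moeb, ModularGroup.sl_moeb, ← mul_smul, ← mul_smul]
      exact congrArg (· • z) (coc1_spec hpM t x γ)
    rw [h2, periodMap1_apply M hF (coc1 hpM t x γ) (rep1 t (redMatrix p (γ : SL(2, ℤ)) • x) • z)]
    ring
  have h4 : ∑ x : OnePoint (ZMod p), F (rep1 t (redMatrix p (γ : SL(2, ℤ)) • x) • z)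
      = ∑ x : OnePoint (ZMod p), F (rep1 t x • z) :=
    Equiv.sum_comp (MulAction.toPerm (redMatrix p (γ : SL(2, ℤ))))
      (fun x => F (rep1 t x • z))
  simp only [heckePrimitive1]
  rw [Finset.sum_congr rfl fun x _ => h1 x, Finset.sum_add_distrib, h4]
  ring

/-- The normalised sum of the Hecke translates of the equivariant primitive of `f` is the
equivariant primitive of `T_p f`. -/
theorem hasEquivariantPrimitive1_heckeTLin {f : CuspForm (Gamma1 M) 2} {F : ℍ → ℂ}
    (hF : HasEquivariantPrimitive1 M f F) :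
    ∃ L : ℂ, HasEquivariantPrimitive1 M (Hecke1.heckeTLin 2 (Fact.out : p.Prime) hpM f)
      (fun w => heckePrimitive1 t F w - L) := by
  obtain ⟨L, hL⟩ := tendsto_heckePrimitive1_cusp t hF.2.2.2 1
  simp only [one_smul] at hL
  refine ⟨L, ?_, ?_, ?_, ?_⟩
  · intro τ
    exact (isPrimitiveOf_heckePrimitive1 hpM t hF.1 τ).sub_const L
  · have h := hL.sub_const L
    rw [sub_self] at h
    exact h
  · intro γ
    refine ⟨∑ x : OnePoint (ZMod p), periodMap1 M f (Additive.ofMul (coc1 hpM t x γ)),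
      fun z => ?_⟩
    rw [sub_sub_sub_cancel_right]
    exact heckePrimitive1_smul_sub hpM t hF γ z
  · intro δ
    obtain ⟨L', hL'⟩ := tendsto_heckePrimitive1_cusp t hF.2.2.2 δ
    exact ⟨L' - L, hL'.sub_const L⟩

/-- **(b1.4-A)** The period map intertwines `T_p` on `S₂(Γ₁(M))` with `heckeHom1`, for every
twist `t`. -/
theorem periodMap1_heckeTLin_fact (f : CuspForm (Gamma1 M) 2) :
    periodMap1 M (Hecke1.heckeTLin 2 (Fact.out : p.Prime) hpM f) =
      heckeHom1 hpM t ℂ (periodMap1 M f) := by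
  obtain ⟨F, hF⟩ := exists_hasEquivariantPrimitive1 M f
  obtain ⟨L, hG⟩ := hasEquivariantPrimitive1_heckeTLin hpM t hF
  refine AddMonoidHom.ext fun γ' => ?_
  obtain ⟨γ, rfl⟩ : ∃ γ : Gamma1pm M, Additive.ofMul γ = γ' := ⟨Additive.toMul γ', rfl⟩
  rw [periodMap1_apply M hG γ UpperHalfPlane.I, heckeHom1_apply, sub_sub_sub_cancel_right]
  exact heckePrimitive1_smul_sub hpM t hF γ UpperHalfPlane.I

/-- **(b1.4-A)**, with an explicit primality proof. -/
theorem periodMap1_heckeTLin_twist (hp : p.Prime) (f : CuspForm (Gamma1 M) 2) :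
    periodMap1 M (Hecke1.heckeTLin 2 hp hpM f) = heckeHom1 hpM t ℂ (periodMap1 M f) :=
  periodMap1_heckeTLin_fact hpM t f

/-- On the image of the period map, `heckeHom1` does not depend on the twist. -/
theorem heckeHom1_periodMap1_congr (t t' : Twist M p) (f : CuspForm (Gamma1 M) 2) :
    heckeHom1 hpM t ℂ (periodMap1 M f) = heckeHom1 hpM t' ℂ (periodMap1 M f) := by
  rw [← periodMap1_heckeTLin_fact hpM t f, ← periodMap1_heckeTLin_fact hpM t' f]

end Fermat.Agent.S48x.G1
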